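import Mathlib
import Fermat.Prelude.Def_FormalHecke_Eigensystem

/-!
# S49 block FORMAL (owner: helper46)

A formal Hecke eigensystem is multiplicative and satisfies the prime-power recursions.
-/

set_option autoImplicit false

namespace Fermat.Agent.S49

/-- The prime-power recursion, immediate from the eigensystem relation with `n = ℓ ^ (r + 1)`. -/
theorem isEigensystem_prime_pow {R : Type*} [CommRing R] {e a : ℕ → R}
    (h : FormalHecke.IsEigensystem e a) (ℓ r : ℕ) (hℓ : ℓ.Prime) :
    a (ℓ ^ (r + 2)) = a ℓ * a (ℓ ^ (r + 1)) - e ℓ * a (ℓ ^ r) := by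
  have h2 := h.2 ℓ hℓ (ℓ ^ (r + 1))
  have hdvd : ℓ ∣ ℓ ^ (r + 1) := dvd_pow_self ℓ (Nat.succ_ne_zero r)
  rw [if_pos hdvd] at h2
  have hdiv : ℓ ^ (r + 1) / ℓ = ℓ ^ r := by
    rw [pow_succ, Nat.mul_div_cancel _ hℓ.pos]
  have hmul : ℓ * ℓ ^ (r + 1) = ℓ ^ (r + 2) := by
    rw [pow_succ ℓ (r + 1), mul_comm]
  rw [hdiv, hmul] at h2
  rw [← h2]
  ring

/-- Multiplicativity on coprime arguments (strong induction on `m`, peeling off `m.minFac`). -/
theorem isEigensystem_mul_of_coprime {R : Type*} [CommRing R] {e a : ℕ → R}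
    (h : FormalHecke.IsEigensystem e a) (m n : ℕ) (hmn : m.Coprime n) :
    a (m * n) = a m * a n := by
  induction m using Nat.strong_induction_on with
  | _ m ih =>
    rcases Nat.lt_or_ge m 2 with hm | hm
    · interval_cases m
      · -- m = 0, so n = 1
        have hn : n = 1 := by simpa using hmn
        subst hn
        rw [h.1, mul_one, mul_one]
      · rw [h.1, one_mul, one_mul]
    · -- m ≥ 2
      obtain ⟨ℓ, hℓ, hℓm⟩ := Nat.exists_prime_and_dvd (show m ≠ 1 by omega)
      obtain ⟨m', rfl⟩ := hℓm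
      have hm'pos : 0 < m' := by
        rcases Nat.eq_zero_or_pos m' with h0 | h0
        · subst h0; omega
        · exact h0
      have hm'lt : m' < ℓ * m' := by
        have := hℓ.two_le
        nlinarith
      have hcop' : m'.Coprime n := Nat.Coprime.coprime_dvd_left (Dvd.intro_left ℓ rfl) hmn
      have hℓn : ¬ ℓ ∣ n := by
        intro hdvd
        have hℓcop : ℓ.Coprime n := Nat.Coprime.coprime_dvd_left (Dvd.intro m' rfl) hmn
        have : ℓ ∣ Nat.gcd ℓ n := Nat.dvd_gcd dvd_rfl hdvd
        rw [hℓcop] at this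
        exact hℓ.one_lt.ne' (Nat.dvd_one.mp this)
      have hℓcop : ℓ.Coprime n := (Nat.Prime.coprime_iff_not_dvd hℓ).mpr hℓn
      have e1 := h.2 ℓ hℓ (m' * n)
      have e2 := h.2 ℓ hℓ m'
      have ih1 := ih m' hm'lt hcop'
      rw [mul_assoc, ← sub_eq_iff_eq_add.mpr e1.symm, ← sub_eq_iff_eq_add.mpr e2.symm, ih1]
      by_cases hd : ℓ ∣ m'
      · have hd' : ℓ ∣ m' * n := Dvd.dvd.mul_right hd n
        rw [if_pos hd, if_pos hd']
        obtain ⟨m'', rfl⟩ := hd
        have hm''lt : m'' < ℓ * (ℓ * m'') := by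
          have := hℓ.two_le
          have hm''pos : 0 < m'' := by
            rcases Nat.eq_zero_or_pos m'' with h0 | h0
            · subst h0; omega
            · exact h0
          nlinarith
        have hcop'' : m''.Coprime n :=
          Nat.Coprime.coprime_dvd_left (Dvd.intro_left ℓ rfl) hcop'
        have ih2 := ih m'' hm''lt hcop''
        have hdiv1 : ℓ * m'' * n / ℓ = m'' * n := by
          rw [mul_assoc, Nat.mul_div_cancel_left _ hℓ.pos]
        have hdiv2 : ℓ * m'' / ℓ = m'' := Nat.mul_div_cancel_left _ hℓ.pos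
        rw [hdiv1, hdiv2, ih2]
        ring
      · have hd' : ¬ ℓ ∣ m' * n := by
          intro hdvd
          rcases (Nat.Prime.dvd_mul hℓ).mp hdvd with h1 | h1
          · exact hd h1
          · exact hℓn h1
        rw [if_neg hd, if_neg hd']
        ring

/-- If `a 1 = 0` were allowed: an "unnormalised" eigensystem with `c 1 = 0` vanishes on all
positive integers.  Here `lam ℓ` plays the role of the eigenvalue. -/
theorem eq_zero_of_eigen_of_one_eq_zero {R : Type*} [CommRing R] {e lam c : ℕ → R}
    (h : ∀ ℓ : ℕ, ℓ.Prime → ∀ n : ℕ,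
      c (n * ℓ) + e ℓ * (if ℓ ∣ n then c (n / ℓ) else 0) = lam ℓ * c n)
    (h1 : c 1 = 0) (n : ℕ) (hn : 0 < n) : c n = 0 := by
  induction n using Nat.strong_induction_on with
  | _ n ih =>
    rcases Nat.lt_or_ge n 2 with hn2 | hn2
    · have : n = 1 := by omega
      subst this
      exact h1
    · obtain ⟨ℓ, hℓ, hℓn⟩ := Nat.exists_prime_and_dvd (show n ≠ 1 by omega)
      obtain ⟨n', rfl⟩ := hℓn
      have hn'pos : 0 < n' := by
        rcases Nat.eq_zero_or_pos n' with h0 | h0
        · subst h0; omega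
        · exact h0
      have hn'lt : n' < ℓ * n' := by
        have := hℓ.two_le
        nlinarith
      have e1 := h ℓ hℓ n'
      rw [ih n' hn'lt hn'pos, mul_zero] at e1
      rw [mul_comm ℓ n']
      by_cases hd : ℓ ∣ n'
      · rw [if_pos hd] at e1
        obtain ⟨n'', rfl⟩ := hd
        have hn''pos : 0 < n'' := by
          rcases Nat.eq_zero_or_pos n'' with h0 | h0
          · subst h0; omega
          · exact h0
        have hn''lt : n'' < ℓ * (ℓ * n'') := by
          have := hℓ.two_le
          nlinarith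
        rw [Nat.mul_div_cancel_left _ hℓ.pos, ih n'' hn''lt hn''pos, mul_zero, add_zero] at e1
        exact e1
      · rw [if_neg hd, mul_zero, add_zero] at e1
        exact e1

end Fermat.Agent.S49
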