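import Mathlib
import Fermat.Agent.S49.Formal
import Fermat.Agent.S49.QCoeff

/-!
# S49 block NORMALIZE (owner: helper46)

A nonzero simultaneous eigenvector of all `T_ℓ` (`ℓ ∤ N`) and `U_ℓ` (`ℓ ∣ N`) in
`S₂(Γ₀(N))` has nonzero first coefficient, and dividing by it gives a normalised eigenform
whose prime coefficients are the eigenvalues.
-/

set_option autoImplicit false

namespace Fermat.Agent.S49

open ModularFormClass CongruenceSubgroup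

/-- The coefficient relation satisfied by a simultaneous Hecke eigenvector. -/
theorem qCoeff_eigen_relation {N : ℕ} [NeZero N]
    (g : CuspForm (Gamma0 N) 2) (lam : ℕ → ℂ)
    (hT : ∀ (ℓ : ℕ) (hℓ : ℓ.Prime) (hℓN : ¬ ℓ ∣ N),
      CuspForm.heckeTLin 2 hℓ hℓN g = lam ℓ • g)
    (hU : ∀ (ℓ : ℕ) (_ : ℓ.Prime) (hℓN : ℓ ∣ N),
      CuspForm.heckeULin 2 hℓN g = lam ℓ • g)
    (ℓ : ℕ) (hℓ : ℓ.Prime) (n : ℕ) :
    qCoeff ⇑g (n * ℓ) + (if ℓ ∣ N then (0 : ℂ) else (ℓ : ℂ)) *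
        (if ℓ ∣ n then qCoeff ⇑g (n / ℓ) else 0) = lam ℓ * qCoeff ⇑g n := by
  by_cases hℓN : ℓ ∣ N
  · rw [if_pos hℓN, zero_mul, add_zero]
    have h1 := qCoeff_heckeULin hℓ hℓN g n
    rw [hU ℓ hℓ hℓN, qCoeff_smul] at h1
    exact h1.symm
  · rw [if_neg hℓN]
    have h1 := qCoeff_heckeTLin hℓ hℓN g n
    rw [hT ℓ hℓ hℓN, qCoeff_smul] at h1
    rw [h1]
    have h21 : ((2 : ℤ) - 1) = 1 := by norm_num
    rw [h21, zpow_one]
    split_ifs <;> ring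

theorem exists_normalizedEigenform_of_eigenvector {N : ℕ} [NeZero N]
    (g : CuspForm (Gamma0 N) 2) (hg : g ≠ 0) (lam : ℕ → ℂ)
    (hT : ∀ (ℓ : ℕ) (hℓ : ℓ.Prime) (hℓN : ¬ ℓ ∣ N),
      CuspForm.heckeTLin 2 hℓ hℓN g = lam ℓ • g)
    (hU : ∀ (ℓ : ℕ) (_ : ℓ.Prime) (hℓN : ℓ ∣ N),
      CuspForm.heckeULin 2 hℓN g = lam ℓ • g) :
    ∃ f : CuspForm (Gamma0 N) 2, f.IsNormalizedEigenform ∧
      ∀ ℓ : ℕ, ℓ.Prime → qCoeff ⇑f ℓ = lam ℓ := by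
  classical
  set e : ℕ → ℂ := fun ℓ => if ℓ ∣ N then (0 : ℂ) else (ℓ : ℂ) with he
  have hrel : ∀ ℓ : ℕ, ℓ.Prime → ∀ n : ℕ,
      qCoeff ⇑g (n * ℓ) + e ℓ * (if ℓ ∣ n then qCoeff ⇑g (n / ℓ) else 0) =
        lam ℓ * qCoeff ⇑g n :=
    fun ℓ hℓ n => qCoeff_eigen_relation g lam hT hU ℓ hℓ n
  -- the first coefficient is nonzero
  have hc1 : qCoeff ⇑g 1 ≠ 0 := by
    intro h1
    apply hg
    apply eq_zero_of_forall_qCoeff_eq_zero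
    intro n
    rcases Nat.eq_zero_or_pos n with rfl | hn
    · exact qCoeff_zero_eq_zero g
    · exact eq_zero_of_eigen_of_one_eq_zero (e := e) (lam := lam) hrel h1 n hn
  -- normalise
  refine ⟨(qCoeff ⇑g 1)⁻¹ • g, ?_, ?_⟩
  · have hcoe : ∀ n : ℕ, qCoeff ⇑((qCoeff ⇑g 1)⁻¹ • g) n = (qCoeff ⇑g 1)⁻¹ * qCoeff ⇑g n :=
      fun n => qCoeff_smul _ g n
    have hone : qCoeff ⇑((qCoeff ⇑g 1)⁻¹ • g) 1 = 1 := by
      rw [hcoe, inv_mul_cancel₀ hc1]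
    have hrel' : ∀ ℓ : ℕ, ℓ.Prime → ∀ n : ℕ,
        qCoeff ⇑((qCoeff ⇑g 1)⁻¹ • g) (n * ℓ) +
            e ℓ * (if ℓ ∣ n then qCoeff ⇑((qCoeff ⇑g 1)⁻¹ • g) (n / ℓ) else 0) =
          lam ℓ * qCoeff ⇑((qCoeff ⇑g 1)⁻¹ • g) n := by
      intro ℓ hℓ n
      rw [hcoe, hcoe, hcoe]
      have := hrel ℓ hℓ n
      split_ifs at this ⊢ with hd
      · linear_combination (qCoeff ⇑g 1)⁻¹ * this
      · linear_combination (qCoeff ⇑g 1)⁻¹ * this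
    have hlam : ∀ ℓ : ℕ, ℓ.Prime → qCoeff ⇑((qCoeff ⇑g 1)⁻¹ • g) ℓ = lam ℓ := by
      intro ℓ hℓ
      have h1 := hrel' ℓ hℓ 1
      have hnd : ¬ ℓ ∣ 1 := fun hd => hℓ.one_lt.ne' (Nat.dvd_one.mp hd)
      rw [if_neg hnd, mul_zero, add_zero, one_mul, hone, mul_one] at h1
      exact h1
    have heig : FormalHecke.IsEigensystem e (fun n => qCoeff ⇑((qCoeff ⇑g 1)⁻¹ • g) n) := by
      refine ⟨hone, fun ℓ hℓ n => ?_⟩
      have h1 := hrel' ℓ hℓ n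
      rw [mul_comm n ℓ] at h1
      show qCoeff ⇑((qCoeff ⇑g 1)⁻¹ • g) (ℓ * n) +
          e ℓ * (if ℓ ∣ n then qCoeff ⇑((qCoeff ⇑g 1)⁻¹ • g) (n / ℓ) else 0) =
        qCoeff ⇑((qCoeff ⇑g 1)⁻¹ • g) ℓ * qCoeff ⇑((qCoeff ⇑g 1)⁻¹ • g) n
      rw [h1, hlam ℓ hℓ]
    exact
      { qCoeff_one := hone
        qCoeff_mul_of_coprime := fun m n hmn => isEigensystem_mul_of_coprime heig m n hmn
        qCoeff_prime_pow_of_not_dvd := fun p r hp hpN => by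
          have h1 := isEigensystem_prime_pow heig p r hp
          simp only [he, if_neg hpN] at h1
          exact h1
        qCoeff_prime_pow_of_dvd := fun p r hp hpN => by
          have h1 := isEigensystem_prime_pow heig p r hp
          simp only [he, if_pos hpN, zero_mul, sub_zero] at h1
          exact h1 }
  · intro ℓ hℓ
    have hcoe : ∀ n : ℕ, qCoeff ⇑((qCoeff ⇑g 1)⁻¹ • g) n = (qCoeff ⇑g 1)⁻¹ * qCoeff ⇑g n :=
      fun n => qCoeff_smul _ g n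
    have h1 := hrel ℓ hℓ 1
    have hnd : ¬ ℓ ∣ 1 := fun hd => hℓ.one_lt.ne' (Nat.dvd_one.mp hd)
    rw [if_neg hnd, mul_zero, add_zero, one_mul] at h1
    rw [hcoe, h1]
    field_simp

end Fermat.Agent.S49
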