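import Mathlib

/-!
# Deligne–Serre lifting lemma: the commutative-algebra core

`A` is a commutative ring, integral over `ℤ`, mapping injectively to a commutative `ℂ`-algebra `B`
which acts faithfully on a finite-dimensional complex vector space `V`.  For a maximal ideal `𝔪` of
`A` we produce a character `χ : B →ₐ[ℂ] ℂ` with a nonzero eigenvector, whose restriction to `A`
takes values in the algebraic integers, together with a maximal ideal `𝔪'` of the algebraic
integers whose pull-back to `A` is `𝔪`.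
-/

set_option autoImplicit false

namespace Fermat.Agent.S49

open Module in
/-- A character of a finite-dimensional commutative algebra acting faithfully has an
eigenvector, provided its kernel is given. -/
theorem exists_eigenvector_of_prime
    {B V : Type*} [CommRing B] [Algebra ℂ B] [AddCommGroup V] [Module ℂ V]
    [FiniteDimensional ℂ V]
    (ρ : B →ₐ[ℂ] Module.End ℂ V) (hρ : Function.Injective ρ)
    (𝔮 : Ideal B) [h𝔮 : 𝔮.IsPrime] :
    ∃ (χ : B →ₐ[ℂ] ℂ) (g : V), g ≠ 0 ∧ RingHom.ker (χ : B →+* ℂ) = 𝔮 ∧ ∀ b, ρ b g = χ b • g := by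
  classical
  have : Module.Finite ℂ B := Module.Finite.of_injective ρ.toLinearMap hρ
  have : IsArtinianRing B := IsArtinianRing.of_finite ℂ B
  have : IsNoetherianRing B := IsNoetherianRing.of_finite ℂ B
  have : 𝔮.IsMaximal := IsArtinianRing.isMaximal_of_isPrime 𝔮
  -- the character
  let _ : Field (B ⧸ 𝔮) := Ideal.Quotient.field 𝔮
  have : Algebra.IsIntegral ℂ (B ⧸ 𝔮) := Algebra.IsIntegral.of_finite ℂ (B ⧸ 𝔮)
  have hbij : Function.Bijective (algebraMap ℂ (B ⧸ 𝔮)) :=
    IsAlgClosed.algebraMap_bijective_of_isIntegral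
  let e : ℂ ≃ₐ[ℂ] (B ⧸ 𝔮) := AlgEquiv.ofBijective (Algebra.ofId ℂ (B ⧸ 𝔮)) hbij
  let χ : B →ₐ[ℂ] ℂ := (e.symm : (B ⧸ 𝔮) →ₐ[ℂ] ℂ).comp (Ideal.Quotient.mkₐ ℂ 𝔮)
  have hker : RingHom.ker (χ : B →+* ℂ) = 𝔮 := by
    ext b
    simp only [RingHom.mem_ker, χ]
    constructor
    · intro hb
      have : (Ideal.Quotient.mkₐ ℂ 𝔮) b = 0 := by
        have := congrArg e hb
        simpa using this
      exact Ideal.Quotient.eq_zero_iff_mem.mp this
    · intro hb
      have : (Ideal.Quotient.mkₐ ℂ 𝔮) b = 0 := Ideal.Quotient.eq_zero_iff_mem.mpr hb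
      rw [AlgHom.coe_toRingHom, AlgHom.comp_apply, this, map_zero]
  -- the module structure
  let _ : Module B V := Module.compHom V (ρ : B →+* Module.End ℂ V)
  have hsmul : ∀ (b : B) (v : V), b • v = ρ b v := fun b v => rfl
  have : IsScalarTower ℂ B V := ⟨fun c b v => by
    rw [hsmul, hsmul, map_smul]; rfl⟩
  have : Module.Finite B V := Module.Finite.of_restrictScalars_finite ℂ B V
  have hann : Module.annihilator B V = ⊥ := by
    rw [eq_bot_iff]
    intro b hb
    rw [Module.mem_annihilator] at hb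
    have : ρ b = 0 := LinearMap.ext fun v => hb v
    exact (Ideal.mem_bot).mpr (hρ (by rw [this, map_zero]))
  have hmin : 𝔮 ∈ (Module.annihilator B V).minimalPrimes := by
    rw [hann]
    exact IsArtinianRing.mem_minimalPrimes bot_le
  have hass : IsAssociatedPrime 𝔮 V :=
    Module.associatedPrimes.minimalPrimes_annihilator_subset_associatedPrimes B V hmin
  obtain ⟨-, g, hg⟩ := (isAssociatedPrime_iff).mp hass
  refine ⟨χ, g, ?_, hker, ?_⟩
  · rintro rfl
    apply h𝔮.ne_top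
    rw [hg, eq_top_iff]
    intro b _
    simp [Submodule.mem_colon_singleton]
  · intro b
    have hb : b - algebraMap ℂ B (χ b) ∈ 𝔮 := by
      rw [← hker, RingHom.mem_ker]
      simp
    rw [hg, Submodule.mem_colon_singleton, Submodule.mem_bot] at hb
    rw [sub_smul, sub_eq_zero, hsmul, hsmul] at hb
    rw [hb, AlgHom.commutes]
    rfl

/-- **Deligne–Serre lifting lemma**, algebraic core. -/
theorem exists_character_of_isMaximal
    {A B V : Type*} [CommRing A] [CommRing B] [Algebra ℂ B] [AddCommGroup V] [Module ℂ V]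
    [FiniteDimensional ℂ V]
    (ρ : B →ₐ[ℂ] Module.End ℂ V) (hρ : Function.Injective ρ)
    (ι : A →+* B) (hι : Function.Injective ι)
    (hint : ∀ t : A, IsIntegral ℤ t)
    (𝔪 : Ideal A) [h𝔪 : 𝔪.IsMaximal] :
    ∃ (χ : B →ₐ[ℂ] ℂ) (g : V) (lam : A →+* integralClosure ℤ ℂ)
      (𝔪' : Ideal (integralClosure ℤ ℂ)),
      g ≠ 0 ∧ (∀ b, ρ b g = χ b • g) ∧
      (∀ t, ((lam t : integralClosure ℤ ℂ) : ℂ) = χ (ι t)) ∧
      𝔪'.IsMaximal ∧ 𝔪'.comap lam = 𝔪 := by
  classical
  -- a minimal prime below `𝔪`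
  obtain ⟨𝔭, h𝔭min, h𝔭le⟩ := Ideal.exists_minimalPrimes_le (I := (⊥ : Ideal A)) (J := 𝔪) bot_le
  have hcomap : Ideal.comap ι (⊥ : Ideal B) = ⊥ := by
    rw [← RingHom.ker_eq_comap_bot]
    exact (RingHom.injective_iff_ker_eq_bot ι).mp hι
  have h𝔭min' : 𝔭 ∈ (Ideal.comap ι (⊥ : Ideal B)).minimalPrimes := by rwa [hcomap]
  obtain ⟨𝔮, h𝔮prime, -, h𝔮comap⟩ := Ideal.exists_comap_eq_of_mem_minimalPrimes ι 𝔭 h𝔭min'
  obtain ⟨χ, g, hg0, hker, hg⟩ := exists_eigenvector_of_prime ρ hρ 𝔮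
  -- the integral character
  let lam : A →+* integralClosure ℤ ℂ :=
    ((χ : B →+* ℂ).comp ι).codRestrict (integralClosure ℤ ℂ)
      (fun t => map_isIntegral_int ((χ : B →+* ℂ).comp ι) (hint t))
  have hlam : ∀ t, ((lam t : integralClosure ℤ ℂ) : ℂ) = χ (ι t) := fun t => rfl
  have hkerlam : RingHom.ker lam = 𝔭 := by
    ext t
    rw [RingHom.mem_ker, ← h𝔮comap, Ideal.mem_comap, ← hker, RingHom.mem_ker]
    constructor
    · intro h
      have := congrArg (fun x : integralClosure ℤ ℂ => (x : ℂ)) h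
      simpa [hlam] using this
    · intro h
      apply Subtype.ext
      rw [hlam]
      simpa using h
  let _ : Algebra A (integralClosure ℤ ℂ) := lam.toAlgebra
  have : Algebra.IsIntegral A (integralClosure ℤ ℂ) := by
    refine ⟨fun x => ?_⟩
    have hx : IsIntegral ℤ x := integralClosure.isIntegral x
    exact hx.tower_top
  have hkerle : RingHom.ker (algebraMap A (integralClosure ℤ ℂ)) ≤ 𝔪 := by
    change RingHom.ker lam ≤ 𝔪
    rw [hkerlam]
    exact h𝔭le
  obtain ⟨𝔪', h𝔪'max, h𝔪'comap⟩ :=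
    Ideal.exists_ideal_over_maximal_of_isIntegral (S := integralClosure ℤ ℂ) 𝔪 hkerle
  exact ⟨χ, g, lam, 𝔪', hg0, hg, hlam, h𝔪'max, h𝔪'comap⟩

end Fermat.Agent.S49
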