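import Mathlib
import Fermat.Agent.S49.Core

/-!
# Deligne–Serre lifting lemma for a commuting family preserving a lattice

`G` is a commuting family of endomorphisms of a complex vector space `V` preserving a finitely
generated `ℤ`-submodule `L` spanning `V`; `f₀ ∈ L ∖ 3L` is an eigenvector modulo `3L` of every
member of `G`.  Then there is a genuine common eigenvector whose eigenvalues are algebraic integers
congruent to the eigenvalues of `f₀` modulo a maximal ideal above `3`.
-/

set_option autoImplicit false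

namespace Fermat.Agent.S49

open scoped IsMulCommutative in
theorem exists_eigenvector_lift
    {V : Type*} [AddCommGroup V] [Module ℂ V]
    (G : Set (Module.End ℂ V)) (hG : ∀ s ∈ G, ∀ t ∈ G, s * t = t * s)
    (L : Submodule ℤ V) (hLfg : L.FG) (hLspan : Submodule.span ℂ (L : Set V) = ⊤)
    (hGL : ∀ t ∈ G, ∀ x ∈ L, t x ∈ L)
    (f₀ : V) (hf₀ : f₀ ∈ L) (hf₀' : ∀ y ∈ L, f₀ ≠ (3 : ℤ) • y)
    (hc : ∀ t ∈ G, ∃ n : ℤ, ∃ y ∈ L, t f₀ - n • f₀ = (3 : ℤ) • y) :
    ∃ (g : V) (μ : Module.End ℂ V → integralClosure ℤ ℂ)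
      (𝔪' : Ideal (integralClosure ℤ ℂ)),
      g ≠ 0 ∧ 𝔪'.IsMaximal ∧ ((3 : ℕ) : integralClosure ℤ ℂ) ∈ 𝔪' ∧
      ∀ t ∈ G, t g = ((μ t : integralClosure ℤ ℂ) : ℂ) • g ∧
        ∀ n : ℤ, (∃ y ∈ L, t f₀ - n • f₀ = (3 : ℤ) • y) →
          μ t - (n : integralClosure ℤ ℂ) ∈ 𝔪' := by
  classical
  -- finite-dimensionality
  have hfd : FiniteDimensional ℂ V := by
    obtain ⟨S, hS⟩ := hLfg
    refine Module.finite_def.mpr ⟨S, ?_⟩
    rw [← hLspan, ← hS, Submodule.span_span_of_tower]
  have hLfin : Module.Finite ℤ L := Module.Finite.iff_fg.mpr hLfg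
  -- the two algebras
  set A : Subalgebra ℤ (Module.End ℂ V) := Algebra.adjoin ℤ G with hA
  set B : Subalgebra ℂ (Module.End ℂ V) := Algebra.adjoin ℂ G with hB
  have hcommA : IsMulCommutative A := Algebra.isMulCommutative_adjoin ℤ hG
  have hcommB : IsMulCommutative B := Algebra.isMulCommutative_adjoin ℂ hG
  have hAB : ∀ t ∈ A, t ∈ B := by
    intro t ht
    have hle : A ≤ B.restrictScalars ℤ := Algebra.adjoin_le (Algebra.subset_adjoin)
    exact hle ht
  have hAL : ∀ t ∈ A, ∀ x ∈ L, t x ∈ L := by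
    intro t ht
    induction ht using Algebra.adjoin_induction with
    | mem t ht => exact hGL t ht
    | algebraMap n =>
      intro x hx
      rw [Algebra.algebraMap_eq_smul_one, LinearMap.smul_apply, Module.End.one_apply]
      exact L.smul_mem n hx
    | add s t _ _ hs ht =>
      intro x hx
      rw [LinearMap.add_apply]
      exact L.add_mem (hs x hx) (ht x hx)
    | mul s t _ _ hs ht =>
      intro x hx
      rw [Module.End.mul_apply]
      exact hs _ (ht x hx)
  -- `3L`
  set L3 : Submodule ℤ V := L.map ((3 : ℤ) • (LinearMap.id : V →ₗ[ℤ] V)) with hL3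
  have hmemL3 : ∀ x : V, x ∈ L3 ↔ ∃ y ∈ L, x = (3 : ℤ) • y := by
    intro x
    rw [hL3, Submodule.mem_map]
    constructor
    · rintro ⟨y, hy, rfl⟩
      exact ⟨y, hy, rfl⟩
    · rintro ⟨y, hy, rfl⟩
      exact ⟨y, hy, rfl⟩
  have hAL3 : ∀ t ∈ A, ∀ x ∈ L3, t x ∈ L3 := by
    intro t ht x hx
    obtain ⟨y, hy, rfl⟩ := (hmemL3 x).mp hx
    refine (hmemL3 _).mpr ⟨t y, hAL t ht y hy, ?_⟩
    exact map_zsmul t 3 y
  have hf₀3 : f₀ ∉ L3 := fun h => by
    obtain ⟨y, hy, hy'⟩ := (hmemL3 _).mp h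
    exact hf₀' y hy hy'
  -- every element of `A` acts on `f₀` by an integer modulo `3L`
  have hcong : ∀ t ∈ A, ∃ n : ℤ, t f₀ - n • f₀ ∈ L3 := by
    intro t ht
    induction ht using Algebra.adjoin_induction with
    | mem t ht =>
      obtain ⟨n, y, hy, hy'⟩ := hc t ht
      exact ⟨n, (hmemL3 _).mpr ⟨y, hy, hy'⟩⟩
    | algebraMap n =>
      refine ⟨n, ?_⟩
      rw [Algebra.algebraMap_eq_smul_one, LinearMap.smul_apply, Module.End.one_apply, sub_self]
      exact L3.zero_mem
    | add s t _ _ hs ht =>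
      obtain ⟨m, hm⟩ := hs
      obtain ⟨n, hn⟩ := ht
      refine ⟨m + n, ?_⟩
      have : (s + t) f₀ - (m + n) • f₀ = (s f₀ - m • f₀) + (t f₀ - n • f₀) := by
        rw [LinearMap.add_apply, add_smul]; abel
      rw [this]
      exact L3.add_mem hm hn
    | mul s t hsA _ hs ht =>
      obtain ⟨m, hm⟩ := hs
      obtain ⟨n, hn⟩ := ht
      refine ⟨n * m, ?_⟩
      have : (s * t) f₀ - (n * m) • f₀ = s (t f₀ - n • f₀) + n • (s f₀ - m • f₀) := by
        rw [Module.End.mul_apply, map_sub, map_zsmul, smul_sub, mul_smul]; abel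
      rw [this]
      exact L3.add_mem (hAL3 s hsA _ hn) (L3.smul_mem n hm)
  -- the maximal ideal
  let 𝔪 : Ideal A :=
    { carrier := {t | (t : Module.End ℂ V) f₀ ∈ L3}
      add_mem' := fun {s t} hs ht => by
        change ((s + t : A) : Module.End ℂ V) f₀ ∈ L3
        rw [Subalgebra.coe_add, LinearMap.add_apply]
        exact L3.add_mem hs ht
      zero_mem' := by
        change ((0 : A) : Module.End ℂ V) f₀ ∈ L3
        rw [Subalgebra.coe_zero, LinearMap.zero_apply]
        exact L3.zero_mem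
      smul_mem' := fun s t ht => by
        change ((s * t : A) : Module.End ℂ V) f₀ ∈ L3
        rw [Subalgebra.coe_mul, Module.End.mul_apply]
        exact hAL3 s s.2 _ ht }
  have hmem𝔪 : ∀ t : A, t ∈ 𝔪 ↔ (t : Module.End ℂ V) f₀ ∈ L3 := fun t => Iff.rfl
  have h3𝔪 : ((3 : ℤ) : A) ∈ 𝔪 := by
    rw [hmem𝔪]
    have : (((3 : ℤ) : A) : Module.End ℂ V) f₀ = (3 : ℤ) • f₀ := by
      rw [SubringClass.coe_intCast, ← zsmul_one, LinearMap.smul_apply, Module.End.one_apply]
    rw [this]
    exact (hmemL3 _).mpr ⟨f₀, hf₀, rfl⟩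
  have hcong' : ∀ t : A, ∃ n : ℤ, t - (n : A) ∈ 𝔪 := by
    intro t
    obtain ⟨n, hn⟩ := hcong t t.2
    refine ⟨n, ?_⟩
    rw [hmem𝔪]
    have : ((t - (n : A) : A) : Module.End ℂ V) f₀ = (t : Module.End ℂ V) f₀ - n • f₀ := by
      rw [Subalgebra.coe_sub, LinearMap.sub_apply, SubringClass.coe_intCast, ← zsmul_one,
        LinearMap.smul_apply, Module.End.one_apply]
    rw [this]
    exact hn
  have h𝔪max : 𝔪.IsMaximal := by
    rw [Ideal.isMaximal_iff]
    refine ⟨?_, ?_⟩
    · rw [hmem𝔪, Subalgebra.coe_one, Module.End.one_apply]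
      exact hf₀3
    · intro J x hJ hx hxJ
      obtain ⟨n, hn⟩ := hcong' x
      have hnJ : ((n : ℤ) : A) ∈ J := by
        have : ((n : ℤ) : A) = x - (x - (n : A)) := by ring
        rw [this]
        exact J.sub_mem hxJ (hJ hn)
      have h3n : ¬ (3 : ℤ) ∣ n := by
        rintro ⟨k, rfl⟩
        apply hx
        have : x = (x - (((3 * k : ℤ)) : A)) + ((3 : ℤ) : A) * ((k : ℤ) : A) := by
          push_cast; ring
        rw [this]
        exact 𝔪.add_mem hn (𝔪.mul_mem_right _ h3𝔪)
      have hcop : IsCoprime n 3 := by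
        rw [Int.isCoprime_iff_gcd_eq_one]
        have h3 : Nat.Prime 3 := by norm_num
        have := (Nat.Prime.coprime_iff_not_dvd h3 (n := n.natAbs)).mpr (by
          intro h; exact h3n (Int.natCast_dvd.mpr h))
        rw [Int.gcd_comm]
        exact this
      obtain ⟨u, v, huv⟩ := hcop
      have : (1 : A) = ((u : ℤ) : A) * ((n : ℤ) : A) + ((v : ℤ) : A) * ((3 : ℤ) : A) := by
        have := congrArg (fun z : ℤ => (z : A)) huv
        simp only [Int.cast_add, Int.cast_mul, Int.cast_one] at this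
        exact this.symm
      rw [this]
      exact J.add_mem (J.mul_mem_left _ hnJ) (J.mul_mem_left _ (hJ h3𝔪))
  -- the maps
  let ρ : B →ₐ[ℂ] Module.End ℂ V := B.val
  have hρ : Function.Injective ρ := Subtype.val_injective
  let ι : A →+* B :=
    { toFun := fun t => ⟨t.1, hAB t.1 t.2⟩
      map_one' := rfl
      map_mul' := fun _ _ => rfl
      map_zero' := rfl
      map_add' := fun _ _ => rfl }
  have hι : Function.Injective ι := by
    intro s t hst
    apply Subtype.ext
    exact congrArg (fun b : B => (b : Module.End ℂ V)) hst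
  -- integrality
  let r₀ : A →+* Module.End ℤ L :=
    { toFun := fun t => ((t : Module.End ℂ V).restrictScalars ℤ).restrict (hAL t.1 t.2)
      map_one' := rfl
      map_mul' := fun _ _ => rfl
      map_zero' := rfl
      map_add' := fun _ _ => rfl }
  let r : A →ₐ[ℤ] Module.End ℤ L := r₀.toIntAlgHom
  have hr : Function.Injective r := by
    rw [injective_iff_map_eq_zero]
    intro t ht
    apply Subtype.ext
    rw [Subalgebra.coe_zero]
    have hker : (L : Set V) ⊆ (LinearMap.ker (t : Module.End ℂ V) : Set V) := by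
      intro x hx
      have := congrArg (fun φ : Module.End ℤ L => ((φ ⟨x, hx⟩ : L) : V)) ht
      exact this
    have hle : Submodule.span ℂ (L : Set V) ≤ LinearMap.ker (t : Module.End ℂ V) :=
      Submodule.span_le.mpr hker
    rw [hLspan] at hle
    exact LinearMap.ext fun x => hle (Submodule.mem_top (x := x))
  have hint : ∀ t : A, IsIntegral ℤ t := fun t =>
    (isIntegral_algHom_iff r hr).mp (Algebra.IsIntegral.isIntegral (r t))
  -- apply the core lemma
  obtain ⟨χ, g, lam, 𝔪', hg0, hg, hlam, h𝔪'max, h𝔪'comap⟩ :=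
    exists_character_of_isMaximal ρ hρ ι hι hint 𝔪
  refine ⟨g, fun t => if h : t ∈ A then lam ⟨t, h⟩ else 0, 𝔪', hg0, h𝔪'max, ?_, ?_⟩
  · have : lam ((3 : ℤ) : A) ∈ 𝔪' := by
      rw [← Ideal.mem_comap, h𝔪'comap]
      exact h3𝔪
    rw [map_intCast] at this
    exact_mod_cast this
  · intro t ht
    have htA : t ∈ A := Algebra.subset_adjoin ht
    beta_reduce
    rw [dif_pos htA]
    refine ⟨?_, ?_⟩
    · rw [hlam]
      exact hg (ι ⟨t, htA⟩)
    · rintro n ⟨y, hy, hy'⟩
      have hmem : (⟨t, htA⟩ : A) - ((n : ℤ) : A) ∈ 𝔪 := by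
        rw [hmem𝔪]
        have : (((⟨t, htA⟩ : A) - ((n : ℤ) : A) : A) : Module.End ℂ V) f₀ = t f₀ - n • f₀ := by
          rw [Subalgebra.coe_sub, LinearMap.sub_apply, SubringClass.coe_intCast, ← zsmul_one,
            LinearMap.smul_apply, Module.End.one_apply]
        rw [this]
        exact (hmemL3 _).mpr ⟨y, hy, hy'⟩
      rw [← h𝔪'comap, Ideal.mem_comap] at hmem
      simpa using hmem

end Fermat.Agent.S49
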