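import Mathlib
import Fermat.Prelude.Def_CuspForm_IntegralLattice
import Fermat.Prelude.Def_FormalHecke_Eigensystem

/-!
# S49 block MODTHREE (owner: helper47)

Congruences modulo `3`: the Eisenstein series `e1Chi3` is `≡ 1`, the character `chiNegThree ℓ`
is `≡ ℓ`, hence a lattice realisation `af` of a `χ₋₃`-eigensystem `a` is a weight-two
Hecke eigensystem modulo `3`.
-/

set_option autoImplicit false

namespace Fermat.Agent.S49

open EisensteinWeightOne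

theorem chiNegThree_modEq (ℓ : ℕ) : (3 : ℤ) ∣ (ℓ : ℤ) - chiNegThree ℓ := by
  unfold chiNegThree
  split_ifs <;> omega

/-- The Eisenstein series `e1Chi3` is `1 + 3 * (integral series)`. -/
theorem e1Chi3In_int_eq :
    e1Chi3In ℤ = 1 + PowerSeries.C (3 : ℤ) *
      PowerSeries.mk (fun j => if j = 0 then 0 else 2 * sigmaChi j) := by
  ext j
  rw [e1Chi3In, e1Chi3, PowerSeries.coeff_map, PowerSeries.coeff_mk, map_add,
    PowerSeries.coeff_one, PowerSeries.coeff_C_mul, PowerSeries.coeff_mk, Int.castRingHom_int,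
    RingHom.id_apply]
  split_ifs <;> ring

theorem bridgeProduct_coeff_modEq (a : ℕ → ℤ) (n : ℕ) :
    (3 : ℤ) ∣ (bridgeProduct a).coeff n - a n := by
  show (3 : ℤ) ∣ PowerSeries.coeff n (bridgeProduct a) - a n
  have h : bridgeProduct a = PowerSeries.mk a + PowerSeries.C (3 : ℤ) *
      (PowerSeries.mk a * PowerSeries.mk (fun j => if j = 0 then 0 else 2 * sigmaChi j)) := by
    rw [bridgeProduct, e1Chi3In_int_eq]; ring
  rw [h, map_add, PowerSeries.coeff_mk, PowerSeries.coeff_C_mul, add_sub_cancel_left]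
  exact dvd_mul_right _ _

/-- A lattice realisation is congruent to the eigensystem modulo `3`. -/
theorem af_modEq {a af : ℕ → ℤ} (haf : ∀ n, (3 : ℤ) ∣ af n - (bridgeProduct a).coeff n)
    (n : ℕ) : (3 : ℤ) ∣ af n - a n := by
  have h := dvd_add (haf n) (bridgeProduct_coeff_modEq a n)
  rwa [sub_add_sub_cancel] at h

/-- `T_ℓ`-eigen relation modulo `3` for `ℓ ∤ N` (weight two: the factor is `ℓ ^ (2 - 1) = ℓ`). -/
theorem eigen_modThree_of_not_dvd {N : ℕ} {a af : ℕ → ℤ}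
    (heig : FormalHecke.IsEigensystem
      (fun ℓ => if ℓ ∣ N then 0 else ((chiNegThree ℓ : ℤ) : ℤ)) a)
    (haf : ∀ n, (3 : ℤ) ∣ af n - (bridgeProduct a).coeff n)
    {ℓ : ℕ} (hℓ : ℓ.Prime) (hℓN : ¬ ℓ ∣ N) (n : ℕ) :
    (3 : ℤ) ∣ af (n * ℓ) + (if ℓ ∣ n then (ℓ : ℤ) * af (n / ℓ) else 0) - a ℓ * af n := by
  obtain ⟨-, hrel⟩ := heig
  have hr := hrel ℓ hℓ n
  simp only [if_neg hℓN] at hr
  rw [mul_comm ℓ n] at hr
  obtain ⟨c1, hc1⟩ := af_modEq haf (n * ℓ)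
  obtain ⟨c2, hc2⟩ := af_modEq haf n
  obtain ⟨c3, hc3⟩ := af_modEq haf (n / ℓ)
  obtain ⟨c4, hc4⟩ := chiNegThree_modEq ℓ
  by_cases hd : ℓ ∣ n
  · simp only [if_pos hd] at hr ⊢
    refine ⟨c1 + c4 * af (n / ℓ) + chiNegThree ℓ * c3 - a ℓ * c2, ?_⟩
    linear_combination hc1 + af (n / ℓ) * hc4 + chiNegThree ℓ * hc3 - a ℓ * hc2 + hr
  · simp only [if_neg hd] at hr ⊢
    refine ⟨c1 - a ℓ * c2, ?_⟩
    linear_combination hc1 - a ℓ * hc2 + hr

/-- `U_ℓ`-eigen relation modulo `3` for `ℓ ∣ N`. -/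
theorem eigen_modThree_of_dvd {N : ℕ} {a af : ℕ → ℤ}
    (heig : FormalHecke.IsEigensystem
      (fun ℓ => if ℓ ∣ N then 0 else ((chiNegThree ℓ : ℤ) : ℤ)) a)
    (haf : ∀ n, (3 : ℤ) ∣ af n - (bridgeProduct a).coeff n)
    {ℓ : ℕ} (hℓ : ℓ.Prime) (hℓN : ℓ ∣ N) (n : ℕ) :
    (3 : ℤ) ∣ af (n * ℓ) - a ℓ * af n := by
  obtain ⟨-, hrel⟩ := heig
  have hr := hrel ℓ hℓ n
  simp only [if_pos hℓN] at hr
  rw [mul_comm ℓ n] at hr
  obtain ⟨c1, hc1⟩ := af_modEq haf (n * ℓ)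
  obtain ⟨c2, hc2⟩ := af_modEq haf n
  refine ⟨c1 - a ℓ * c2, ?_⟩
  linear_combination hc1 - a ℓ * hc2 + hr

/-- The first coefficient is a unit modulo `3`. -/
theorem not_dvd_af_one {N : ℕ} {a af : ℕ → ℤ}
    (heig : FormalHecke.IsEigensystem
      (fun ℓ => if ℓ ∣ N then 0 else ((chiNegThree ℓ : ℤ) : ℤ)) a)
    (haf : ∀ n, (3 : ℤ) ∣ af n - (bridgeProduct a).coeff n) :
    ¬ (3 : ℤ) ∣ af 1 := by
  obtain ⟨h1, -⟩ := heig
  have h := af_modEq haf 1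
  rw [h1] at h
  omega

end Fermat.Agent.S49
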